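import Fermat.Agent.S16.Core.Cusp
import Fermat.Agent.S16.SmallP
import Fermat.Agent.S24.Mod.QExpJ

/-!
# GAL / CT / Q : identities between `q`-expansions of modular forms of prime level by the Sturm bound

`IsQ p k A` : the power series `A ∈ ℤ[[q]]` is the `q`-expansion of a modular form of weight `k` on `Γ₀(p)`.
-/

set_option autoImplicit false

open UpperHalfPlane ModularForm CongruenceSubgroup ModularCurve
open scoped MatrixGroups ModularForm Manifold

noncomputable section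

namespace Fermat.Agent.GAL.CT

local notation "Δ" => ModularForm.discriminant

/-- `E₆ = 1 - 504 ∑ σ₅(n) qⁿ`. -/
def eisenstein6 : PowerSeries ℤ :=
  PowerSeries.mk fun n => if n = 0 then 1 else -504 * ∑ d ∈ n.divisors, (d : ℤ) ^ 5

theorem qExpansion_E6 : qExpansion 1 (E₆ : ℍ → ℂ) = eisenstein6.map (Int.castRingHom ℂ) := by
  ext m
  rw [EisensteinSeries.E_qExpansion_coeff _ ⟨3, rfl⟩, PowerSeries.coeff_map, eisenstein6,
    PowerSeries.coeff_mk]
  split_ifs with h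
  · simp
  · rw [show bernoulli 6 = 1 / 42 by decide +kernel, ArithmeticFunction.sigma_apply]
    push_cast
    norm_num

/-- `q ↦ q^r` on power series. -/
def VZ {R : Type*} [CommRing R] (r : ℕ) (A : PowerSeries R) : PowerSeries R :=
  PowerSeries.mk fun n => if r ∣ n then PowerSeries.coeff (n / r) A else 0

theorem coeff_VZ {R : Type*} [CommRing R] (r : ℕ) (A : PowerSeries R) (n : ℕ) :
    PowerSeries.coeff n (VZ r A) = if r ∣ n then PowerSeries.coeff (n / r) A else 0 :=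
  PowerSeries.coeff_mk _ _

theorem map_VZ {R S : Type*} [CommRing R] [CommRing S] (f : R →+* S) (r : ℕ) (A : PowerSeries R) :
    (VZ r A).map f = VZ r (A.map f) := by
  ext n
  rw [PowerSeries.coeff_map, coeff_VZ, coeff_VZ]
  split_ifs
  · rw [PowerSeries.coeff_map]
  · exact map_zero f

/-- `A ∈ ℤ[[q]]` is the `q`-expansion of a modular form of weight `k` on `Γ₀(p)`. -/
def IsQ (p : ℕ) (k : ℤ) (A : PowerSeries ℤ) : Prop :=
  ∃ X : ModularForm (Gamma0 p) k, qExpansion 1 X = A.map (Int.castRingHom ℂ)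

variable {p : ℕ} {k k' : ℤ} {A A' : PowerSeries ℤ}

theorem IsQ.add (h : IsQ p k A) (h' : IsQ p k A') : IsQ p k (A + A') := by
  obtain ⟨X, hX⟩ := h
  obtain ⟨X', hX'⟩ := h'
  refine ⟨X + X', ?_⟩
  rw [map_add, ← hX, ← hX']
  exact ModularForm.qExpansion_add one_pos (one_mem_strictPeriods_Gamma0 p) X X'

theorem IsQ.sub (h : IsQ p k A) (h' : IsQ p k A') : IsQ p k (A - A') := by
  obtain ⟨X, hX⟩ := h
  obtain ⟨X', hX'⟩ := h'
  refine ⟨X - X', ?_⟩
  rw [map_sub, ← hX, ← hX']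
  exact ModularForm.qExpansion_sub one_pos (one_mem_strictPeriods_Gamma0 p) X X'

theorem IsQ.const_mul (c : ℤ) (h : IsQ p k A) : IsQ p k (PowerSeries.C c * A) := by
  obtain ⟨X, hX⟩ := h
  refine ⟨(c : ℂ) • X, ?_⟩
  rw [map_mul, ← hX, PowerSeries.map_C, ← PowerSeries.smul_eq_C_mul]
  exact ModularForm.qExpansion_smul one_pos (one_mem_strictPeriods_Gamma0 p) _ X

theorem IsQ.mul {k'' : ℤ} (h : IsQ p k A) (h' : IsQ p k' A') (hk : k + k' = k'') :
    IsQ p k'' (A * A') := by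
  obtain ⟨X, hX⟩ := h
  obtain ⟨X', hX'⟩ := h'
  subst hk
  refine ⟨X.mul X', ?_⟩
  rw [map_mul, ← hX, ← hX']
  exact ModularForm.qExpansion_mul one_pos (one_mem_strictPeriods_Gamma0 p) X X'

theorem IsQ.of_levelOne [Fact p.Prime] (G : ModularForm 𝒮ℒ k)
    (hG : qExpansion 1 G = A.map (Int.castRingHom ℂ)) : IsQ p k A := by
  obtain ⟨X, _, hX, _, _⟩ := S16.TwoCusp.of_levelOne (p := p) G
  exact ⟨X, by rw [hX, hG]⟩

theorem IsQ.VZ_of_levelOne [Fact p.Prime] (G : ModularForm 𝒮ℒ k)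
    (hG : qExpansion 1 G = A.map (Int.castRingHom ℂ)) : IsQ p k (VZ p A) := by
  obtain ⟨_, Y, _, hY, _⟩ := S16.TwoCusp.of_levelOne (p := p) G
  refine ⟨Y, ?_⟩
  rw [hY, hG, map_VZ]
  rfl

/-- **Sturm bound** in the form used here. -/
theorem IsQ.eq_zero [Fact p.Prime] (h : IsQ p k A) (n₀ : ℕ) (hn₀ : k * (p + 1) < 12 * (n₀ + 1))
    (hc : ∀ n ≤ n₀, PowerSeries.coeff n A = 0) : A = 0 := by
  obtain ⟨X, hX⟩ := h
  have : NeZero p := ⟨(Fact.out : p.Prime).ne_zero⟩
  have hX0 : X = 0 := by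
    apply ModularForm.sturm_bound_Gamma0 p
    intro n hn
    have hidx := S16.index_Gamma0_le p
    have hn' : n ≤ n₀ := by
      by_contra hcon
      push Not at hcon
      have h1 : n₀ + 1 ≤ (k * ((Gamma0 p).index : ℤ)).toNat / 12 := le_trans hcon hn
      have h2 : 12 * (n₀ + 1) ≤ (k * ((Gamma0 p).index : ℤ)).toNat := by
        have := Nat.div_mul_le_self (k * ((Gamma0 p).index : ℤ)).toNat 12
        omega
      have h3 : 0 < (k * ((Gamma0 p).index : ℤ)).toNat := by omega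
      have h4 : 0 < k * ((Gamma0 p).index : ℤ) := by
        by_contra h5
        rw [Int.toNat_of_nonpos (not_lt.mp h5)] at h3
        exact lt_irrefl _ h3
      have h6 : ((k * ((Gamma0 p).index : ℤ)).toNat : ℤ) = k * ((Gamma0 p).index : ℤ) :=
        Int.toNat_of_nonneg h4.le
      have hk : 0 < k := by
        by_contra h5
        exact absurd h4 (not_lt.mpr (mul_nonpos_of_nonpos_of_nonneg (not_lt.mp h5) (by positivity)))
      have h7 : k * ((Gamma0 p).index : ℤ) ≤ k * (p + 1) :=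
        mul_le_mul_of_nonneg_left (by exact_mod_cast hidx) hk.le
      have h8 : (12 * (n₀ + 1) : ℤ) ≤ k * ((Gamma0 p).index : ℤ) := by
        rw [← h6]; exact_mod_cast h2
      linarith
    rw [hX, PowerSeries.coeff_map, hc n hn', map_zero]
  ext n
  have h1 : PowerSeries.coeff n (A.map (Int.castRingHom ℂ)) = 0 := by
    rw [← hX, hX0]
    have : qExpansion 1 (⇑(0 : ModularForm (Gamma0 p) k)) = 0 := by
      simpa using qExpansion_zero 1
    rw [this, map_zero]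
  rw [PowerSeries.coeff_map] at h1
  rw [map_zero]
  exact (map_eq_zero_iff _ (RingHom.injective_int _)).mp h1

theorem isQ_E4 [Fact p.Prime] : IsQ p 4 eisenstein4 :=
  IsQ.of_levelOne E₄ S24.qExpansion_E4

theorem isQ_E6 [Fact p.Prime] : IsQ p 6 eisenstein6 :=
  IsQ.of_levelOne E₆ qExpansion_E6

theorem isQ_VZ_E4 [Fact p.Prime] : IsQ p 4 (VZ p eisenstein4) :=
  IsQ.VZ_of_levelOne E₄ S24.qExpansion_E4

theorem isQ_VZ_E6 [Fact p.Prime] : IsQ p 6 (VZ p eisenstein6) :=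
  IsQ.VZ_of_levelOne E₆ qExpansion_E6

/-- `1728 Δ = E₄³ - E₆²` as formal power series. -/
theorem delta_rel :
    PowerSeries.C (1728 : ℤ) * (PowerSeries.X * dedekindEtaUnit) = eisenstein4 ^ 3 - eisenstein6 ^ 2 := by
  have hinj : Function.Injective (PowerSeries.map (Int.castRingHom ℂ)) :=
    PowerSeries.map_injective _ (RingHom.injective_int _)
  apply hinj
  have a4 : AnalyticAt ℂ (cuspFunction 1 (E₄ : ℍ → ℂ)) 0 :=
    ModularFormClass.analyticAt_cuspFunction_zero E₄ one_pos one_mem_strictPeriods_SL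
  have a6 : AnalyticAt ℂ (cuspFunction 1 (E₆ : ℍ → ℂ)) 0 :=
    ModularFormClass.analyticAt_cuspFunction_zero E₆ one_pos one_mem_strictPeriods_SL
  have a44 : AnalyticAt ℂ (cuspFunction 1 ((E₄ : ℍ → ℂ) * (E₄ : ℍ → ℂ))) 0 := by
    rw [cuspFunction_mul a4.continuousAt a4.continuousAt]
    exact a4.mul a4
  have a444 : AnalyticAt ℂ (cuspFunction 1 ((E₄ : ℍ → ℂ) * ((E₄ : ℍ → ℂ) * (E₄ : ℍ → ℂ)))) 0 := by
    rw [cuspFunction_mul a4.continuousAt a44.continuousAt]
    exact a4.mul a44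
  have a66 : AnalyticAt ℂ (cuspFunction 1 ((E₆ : ℍ → ℂ) * (E₆ : ℍ → ℂ))) 0 := by
    rw [cuspFunction_mul a6.continuousAt a6.continuousAt]
    exact a6.mul a6
  have aD : AnalyticAt ℂ (cuspFunction 1 ((E₄ : ℍ → ℂ) * ((E₄ : ℍ → ℂ) * (E₄ : ℍ → ℂ)) -
      (E₆ : ℍ → ℂ) * (E₆ : ℍ → ℂ))) 0 := by
    rw [cuspFunction_sub a444.continuousAt a66.continuousAt]
    exact a444.sub a66
  have hΔ : (Δ : ℍ → ℂ) = (1 / 1728 : ℂ) • ((E₄ : ℍ → ℂ) * ((E₄ : ℍ → ℂ) * (E₄ : ℍ → ℂ)) -
      (E₆ : ℍ → ℂ) * (E₆ : ℍ → ℂ)) := by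
    funext w
    simp only [Pi.smul_apply, Pi.sub_apply, Pi.mul_apply, smul_eq_mul]
    rw [discriminant_eq_E₄_cube_sub_E₆_sq w]
    ring
  have h1 := S24.qExpansion_discriminant
  rw [hΔ, qExpansion_smul aD, qExpansion_sub a444 a66, qExpansion_mul a4 a44, qExpansion_mul a4 a4,
    qExpansion_mul a6 a6, S24.qExpansion_E4, qExpansion_E6] at h1
  rw [map_mul, map_mul, PowerSeries.map_X, ← h1, map_sub, map_pow, map_pow, PowerSeries.map_C,
    PowerSeries.smul_eq_C_mul, ← mul_assoc, ← map_mul]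
  have : (Int.castRingHom ℂ) 1728 * (1 / 1728 : ℂ) = 1 := by norm_num
  rw [this, map_one, one_mul]
  ring

end Fermat.Agent.GAL.CT
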