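import Fermat.Agent.S24.Mod.Ramanujan
import Fermat.Agent.GAL.CT.Q.Sturm

/-!
# GAL / CT / Q : the `θ`-bridge  `qExpansion (D F) = θ (qExpansion F)`  and Ramanujan's identities
for the formal series `E₂, E₄, E₆ ∈ ℤ[[q]]`.
-/

set_option autoImplicit false

open UpperHalfPlane ModularForm Function Filter Topology ModularCurve
open scoped Manifold MatrixGroups

noncomputable section

namespace Fermat.Agent.GAL.CT

open Derivative S24

local notation "𝕢" => Periodic.qParam

/-- `θ = q d/dq` on power series. -/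
def thetaP {R : Type*} [CommRing R] (A : PowerSeries R) : PowerSeries R :=
  PowerSeries.mk fun n => (n : R) * PowerSeries.coeff n A

theorem coeff_thetaP {R : Type*} [CommRing R] (A : PowerSeries R) (n : ℕ) :
    PowerSeries.coeff n (thetaP A) = (n : R) * PowerSeries.coeff n A := PowerSeries.coeff_mk _ _

theorem map_thetaP {R S : Type*} [CommRing R] [CommRing S] (f : R →+* S) (A : PowerSeries R) :
    (thetaP A).map f = thetaP (A.map f) := by
  ext n
  simp [coeff_thetaP]

theorem periodic_normalizedDeriv {F : ℍ → ℂ} (hF : IsNice 1 F) :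
    Periodic ((D F) ∘ ofComplex) (1 : ℝ) := by
  intro w
  by_cases hw : 0 < w.im
  · have hw' : 0 < (w + (1 : ℝ)).im := by simpa using hw
    simp only [comp_apply, ofComplex_apply_of_im_pos hw', ofComplex_apply_of_im_pos hw]
    rw [hF.normalizedDeriv_eq, hF.normalizedDeriv_eq]
    have h3 : 𝕢 1 (w + (1 : ℝ)) = 𝕢 1 w := by
      simp only [Periodic.qParam, Complex.ofReal_one, div_one, mul_add, mul_one]
      exact Complex.exp_periodic _
    simp only [h3]
  · have hw1 : w.im ≤ 0 := not_lt.mp hw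
    have hw' : (w + (1 : ℝ)).im ≤ 0 := by simpa using hw1
    simp only [comp_apply, ofComplex_apply_of_im_nonpos hw', ofComplex_apply_of_im_nonpos hw1]

theorem cuspFunction_normalizedDeriv {F : ℍ → ℂ} (hF : IsNice 1 F) {q : ℂ} (hq : ‖q‖ < 1) :
    cuspFunction 1 (D F) q = q * deriv (cuspFunction 1 F) q := by
  rcases eq_or_ne q 0 with rfl | hq0
  · rw [hF.isZeroAtImInfty_normalizedDeriv.cuspFunction_apply_zero one_pos, zero_mul]
  · let τ : ℍ := ⟨Periodic.invQParam 1 q, Periodic.im_invQParam_pos_of_norm_lt_one one_pos hq hq0⟩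
    have hτ : 𝕢 1 (τ : ℂ) = q := Periodic.qParam_right_inv one_ne_zero hq0
    have h1 := eq_cuspFunction τ one_ne_zero (periodic_normalizedDeriv hF)
    rw [hτ] at h1
    rw [h1, hF.normalizedDeriv_eq, hτ]

/-- **the `θ`-bridge.** -/
theorem qExpansion_normalizedDeriv {F : ℍ → ℂ} (hF : IsNice 1 F) :
    qExpansion 1 (D F) = thetaP (qExpansion 1 F) := by
  ext m
  rw [qExpansion_coeff, coeff_thetaP, qExpansion_coeff]
  set c := cuspFunction 1 F with hc
  have han : AnalyticAt ℂ c 0 := analyticAt_cuspFunction_zero one_pos hF.per hF.holo hF.bdd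
  have hev : cuspFunction 1 (D F) =ᶠ[𝓝 0] ((fun q => q) * deriv c) := by
    filter_upwards [Metric.ball_mem_nhds (0 : ℂ) one_pos] with q hq
    exact cuspFunction_normalizedDeriv hF (mem_ball_zero_iff.mp hq)
  rw [hev.iteratedDeriv_eq m, iteratedDeriv_mul (f := fun q : ℂ => q) contDiffAt_id han.deriv.contDiffAt]
  simp only [iteratedDeriv_fun_id_zero]
  cases m with
  | zero => simp
  | succ n =>
    rw [Finset.sum_eq_single 1]
    · simp only [if_true, mul_one, Nat.choose_one_right, Nat.add_sub_cancel]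
      rw [← iteratedDeriv_succ']
      ring
    · intro i _ hi
      simp [hi]
    · intro h
      exact absurd (Finset.mem_range.mpr (by omega)) h

/-- `E₂ = 1 - 24 ∑ σ₁(n) qⁿ`. -/
def eisenstein2 : PowerSeries ℤ :=
  PowerSeries.mk fun n => if n = 0 then 1 else -24 * ∑ d ∈ n.divisors, (d : ℤ)

theorem analyticAt_of_isNice {F : ℍ → ℂ} (hF : IsNice 1 F) : AnalyticAt ℂ (cuspFunction 1 F) 0 :=
  analyticAt_cuspFunction_zero one_pos hF.per hF.holo hF.bdd

theorem qExpansion_E2 :
    qExpansion 1 EisensteinSeries.E2 = eisenstein2.map (Int.castRingHom ℂ) := by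
  ext m
  have := UpperHalfPlane.qExpansion_coeff_unique
    (ContinuousMap.mk EisensteinSeries.E2 isNice_E2.holo.continuous)
    (c := fun m : ℕ ↦ (if m = 0 then 1 else -24 * (ArithmeticFunction.sigma 1 m : ℂ) : ℂ))
    one_pos (analyticAt_of_isNice isNice_E2) hasSum_E2_qParam m
  simp only [ContinuousMap.coe_mk] at this
  rw [← this, PowerSeries.coeff_map, eisenstein2, PowerSeries.coeff_mk]
  split_ifs with h
  · simp
  · rw [ArithmeticFunction.sigma_apply]
    push_cast
    simp

/-- Ramanujan: `3 θ E₄ = E₂ E₄ - E₆` in `ℤ[[q]]`. -/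
theorem ramanujanZ_E4 :
    PowerSeries.C (3 : ℤ) * thetaP eisenstein4 = eisenstein2 * eisenstein4 - eisenstein6 := by
  have hinj : Function.Injective (PowerSeries.map (Int.castRingHom ℂ)) :=
    PowerSeries.map_injective _ (RingHom.injective_int _)
  apply hinj
  have a2 := analyticAt_of_isNice isNice_E2
  have a4 := analyticAt_of_isNice isNice_E4
  have a6 := analyticAt_of_isNice isNice_E6
  have a24 : AnalyticAt ℂ (cuspFunction 1 (EisensteinSeries.E2 * (E₄ : ℍ → ℂ))) 0 := by
    rw [cuspFunction_mul a2.continuousAt a4.continuousAt]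
    exact a2.mul a4
  have a246 : AnalyticAt ℂ (cuspFunction 1 (EisensteinSeries.E2 * (E₄ : ℍ → ℂ) - (E₆ : ℍ → ℂ))) 0 := by
    rw [cuspFunction_sub a24.continuousAt a6.continuousAt]
    exact a24.sub a6
  have hD : D (E₄ : ℍ → ℂ) = (1 / 3 : ℂ) • (EisensteinSeries.E2 * (E₄ : ℍ → ℂ) - (E₆ : ℍ → ℂ)) := by
    funext z
    rw [ramanujan_E4]
    simp only [Pi.smul_apply, Pi.sub_apply, Pi.mul_apply, smul_eq_mul]
    ring
  have h1 := qExpansion_normalizedDeriv isNice_E4
  rw [hD, qExpansion_smul a246, qExpansion_sub a24 a6, qExpansion_mul a2 a4, qExpansion_E2,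
    S24.qExpansion_E4, qExpansion_E6] at h1
  rw [map_mul, map_thetaP, ← h1, map_sub, map_mul, PowerSeries.map_C,
    PowerSeries.smul_eq_C_mul, ← mul_assoc, ← map_mul]
  have : (Int.castRingHom ℂ) 3 * (1 / 3 : ℂ) = 1 := by norm_num
  rw [this, map_one, one_mul]

/-- Ramanujan: `2 θ E₆ = E₂ E₆ - E₄²` in `ℤ[[q]]`. -/
theorem ramanujanZ_E6 :
    PowerSeries.C (2 : ℤ) * thetaP eisenstein6 = eisenstein2 * eisenstein6 - eisenstein4 ^ 2 := by
  have hinj : Function.Injective (PowerSeries.map (Int.castRingHom ℂ)) :=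
    PowerSeries.map_injective _ (RingHom.injective_int _)
  apply hinj
  have a2 := analyticAt_of_isNice isNice_E2
  have a4 := analyticAt_of_isNice isNice_E4
  have a6 := analyticAt_of_isNice isNice_E6
  have a26 : AnalyticAt ℂ (cuspFunction 1 (EisensteinSeries.E2 * (E₆ : ℍ → ℂ))) 0 := by
    rw [cuspFunction_mul a2.continuousAt a6.continuousAt]
    exact a2.mul a6
  have a44 : AnalyticAt ℂ (cuspFunction 1 ((E₄ : ℍ → ℂ) * (E₄ : ℍ → ℂ))) 0 := by
    rw [cuspFunction_mul a4.continuousAt a4.continuousAt]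
    exact a4.mul a4
  have a2644 : AnalyticAt ℂ (cuspFunction 1 (EisensteinSeries.E2 * (E₆ : ℍ → ℂ) -
      (E₄ : ℍ → ℂ) * (E₄ : ℍ → ℂ))) 0 := by
    rw [cuspFunction_sub a26.continuousAt a44.continuousAt]
    exact a26.sub a44
  have hD : D (E₆ : ℍ → ℂ) = (1 / 2 : ℂ) • (EisensteinSeries.E2 * (E₆ : ℍ → ℂ) -
      (E₄ : ℍ → ℂ) * (E₄ : ℍ → ℂ)) := by
    funext z
    rw [ramanujan_E6]
    simp only [Pi.smul_apply, Pi.sub_apply, Pi.mul_apply, smul_eq_mul]
    ring
  have h1 := qExpansion_normalizedDeriv isNice_E6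
  rw [hD, qExpansion_smul a2644, qExpansion_sub a26 a44, qExpansion_mul a2 a6, qExpansion_mul a4 a4,
    qExpansion_E2, S24.qExpansion_E4, qExpansion_E6] at h1
  rw [map_mul, map_thetaP, ← h1, map_sub, map_mul, map_pow, PowerSeries.map_C,
    PowerSeries.smul_eq_C_mul, ← mul_assoc, ← map_mul]
  have : (Int.castRingHom ℂ) 2 * (1 / 2 : ℂ) = 1 := by norm_num
  rw [this, map_one, one_mul, sq]

end Fermat.Agent.GAL.CT
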