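import Fermat.Agent.GAL.KLC.XSeries
import Fermat.Agent.GAL.CT.Theta
import Fermat.Agent.GAL.CT.Q.Bridge

/-!
# GAL / CT / Q : `(TH)`  `θ j · Δ = - E₄² E₆`  and  `(θ j)⁶ = j⁴ (j - 1728)³ Δ`  in `ℤ((q))`
-/

set_option autoImplicit false

open ModularCurve

noncomputable section

namespace Fermat.Agent.GAL.CT

/-- `ℤ[[q]] → ℤ((q))`. -/
abbrev LZ : PowerSeries ℤ →+* LaurentSeries ℤ := HahnSeries.ofPowerSeries ℤ ℤ

/-- `E₂ ∈ ℤ((q))`. -/
def E2Z : LaurentSeries ℤ := LZ eisenstein2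
/-- `E₄ ∈ ℤ((q))`. -/
def E4Z : LaurentSeries ℤ := LZ eisenstein4
/-- `E₆ ∈ ℤ((q))`. -/
def E6Z : LaurentSeries ℤ := LZ eisenstein6
/-- `j ∈ ℤ((q))`. -/
abbrev jZ : LaurentSeries ℤ := jqModC ℤ
/-- `Δ ∈ ℤ((q))`. -/
abbrev DZ : LaurentSeries ℤ := S28.DqC ℤ

theorem LZ_injective : Function.Injective LZ := HahnSeries.ofPowerSeries_injective

instance charZero_laurentZ : CharZero (LaurentSeries ℤ) :=
  charZero_of_injective_ringHom (f := (HahnSeries.C : ℤ →+* LaurentSeries ℤ)) HahnSeries.C_injective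

theorem map_castRingHom_int (A : PowerSeries ℤ) : A.map (Int.castRingHom ℤ) = A := by
  ext n; simp

theorem DZ_eq : DZ = LZ (PowerSeries.X * dedekindEtaUnit) := by
  rw [map_mul, HahnSeries.ofPowerSeries_X]
  unfold DZ S28.DqC
  rw [map_castRingHom_int]

theorem DZ_ne_zero : DZ ≠ 0 := by
  intro h
  have := S28.DqC_mul_DqInvC ℤ
  rw [show S28.DqC ℤ = 0 from h, zero_mul] at this
  exact zero_ne_one this

theorem jZ_mul_DZ : jZ * DZ = E4Z ^ 3 := by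
  rw [S28.jqModC_mul_DqC]
  unfold S28.E4cC E4Z
  rw [map_castRingHom_int, map_pow]

theorem delta_relZ : 1728 * DZ = E4Z ^ 3 - E6Z ^ 2 := by
  have := congrArg LZ delta_rel
  rw [map_mul, ← DZ_eq, map_sub, map_pow, map_pow, map_ofNat, map_ofNat] at this
  exact this

theorem theta_LZ (A : PowerSeries ℤ) : theta (LZ A) = LZ (thetaP A) := by
  ext n
  rw [theta_coeff]
  rcases lt_or_ge n 0 with hn | hn
  · rw [ofPowerSeries_coeff_of_neg _ hn, ofPowerSeries_coeff_of_neg _ hn, mul_zero]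
  · obtain ⟨m, rfl⟩ := Int.eq_ofNat_of_zero_le hn
    rw [HahnSeries.ofPowerSeries_apply_coeff, HahnSeries.ofPowerSeries_apply_coeff, coeff_thetaP]
    simp

theorem VZ_eq_expand (r : ℕ) (hr : r ≠ 0) (A : PowerSeries ℤ) : VZ r A = A.expand r hr := by
  ext n
  rw [coeff_VZ, PowerSeries.coeff_expand]

theorem LZ_VZ (r : ℕ) [NeZero r] (A : PowerSeries ℤ) : LZ (VZ r A) = qExpand ℤ r (LZ A) := by
  rw [GR.qExpand_ofPowerSeries, VZ_eq_expand r (NeZero.ne r)]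

theorem theta_E4Z : 3 * theta E4Z = E2Z * E4Z - E6Z := by
  have := congrArg LZ ramanujanZ_E4
  rw [map_mul, ← theta_LZ, map_sub, map_mul, map_ofNat, map_ofNat] at this
  exact this

theorem theta_E6Z : 2 * theta E6Z = E2Z * E6Z - E4Z ^ 2 := by
  have := congrArg LZ ramanujanZ_E6
  rw [map_mul, ← theta_LZ, map_sub, map_mul, map_pow, map_ofNat, map_ofNat] at this
  exact this

theorem theta_ofNat (n : ℕ) [n.AtLeastTwo] : theta (OfNat.ofNat n : LaurentSeries ℤ) = 0 := by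
  have : (OfNat.ofNat n : LaurentSeries ℤ) = HahnSeries.C (OfNat.ofNat n : ℤ) := (map_ofNat _ _).symm
  rw [this, theta_C]

/-- `θ Δ = E₂ Δ`. -/
theorem theta_DZ : theta DZ = E2Z * DZ := by
  have h1 := congrArg theta delta_relZ
  rw [theta_mul, theta_ofNat, zero_mul, zero_add, theta_sub, theta_pow_pred, theta_pow_pred] at h1
  have h4 := theta_E4Z
  have h6 := theta_E6Z
  have hD := delta_relZ
  have h2 : (1728 : LaurentSeries ℤ) * theta DZ = 1728 * (E2Z * DZ) := by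
    rw [h1]
    push_cast
    simp only [pow_one]
    linear_combination E4Z ^ 2 * h4 - E6Z * h6 - E2Z * hD
  exact mul_left_cancel₀ (by norm_num) h2

/-- **(TH)** `θ j · Δ = - E₄² E₆`. -/
theorem theta_jZ : theta jZ * DZ = -(E4Z ^ 2 * E6Z) := by
  have h1 := congrArg theta jZ_mul_DZ
  rw [theta_mul, theta_pow_pred, theta_DZ] at h1
  have h4 := theta_E4Z
  have hj := jZ_mul_DZ
  push_cast at h1
  linear_combination h1 + E4Z ^ 2 * h4 - E2Z * hj

theorem jZ_sub_mul_DZ : (jZ - 1728) * DZ = E6Z ^ 2 := by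
  linear_combination jZ_mul_DZ - delta_relZ

/-- `(θ j)² Δ = j · E₄ · (j - 1728) ...` in the form `(θ j)⁶ = j⁴ (j - 1728)³ Δ`. -/
theorem theta_jZ_pow_six : theta jZ ^ 6 = jZ ^ 4 * (jZ - 1728) ^ 3 * DZ := by
  have h1 := theta_jZ
  have h2 := jZ_mul_DZ
  have h3 := jZ_sub_mul_DZ
  have h : theta jZ ^ 6 * DZ ^ 6 = jZ ^ 4 * (jZ - 1728) ^ 3 * DZ * DZ ^ 6 := by
    calc theta jZ ^ 6 * DZ ^ 6 = (theta jZ * DZ) ^ 6 := by ring
      _ = (E4Z ^ 3) ^ 4 * (E6Z ^ 2) ^ 3 := by rw [h1]; ring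
      _ = (jZ * DZ) ^ 4 * ((jZ - 1728) * DZ) ^ 3 := by rw [h2, h3]
      _ = _ := by ring
  exact mul_right_cancel₀ (pow_ne_zero 6 DZ_ne_zero) h

end Fermat.Agent.GAL.CT
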