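import Fermat.Agent.GAL.CT.Q.Ident
import Fermat.Agent.GAL.CT.Q.ThetaJ

/-!
# GAL / CT / Q : the Hauptmoduln `t₂`, `t₃ ∈ ℤ((q))` of `X₀(2)`, `X₀(3)`

`W_r = (E₄(q) - E₄(q^r)) / 240 = q + …`,  `t_r = E₄(q^r) / W_r - b_r`  (`b₂ = 16`, `b₃ = 3`).
-/

set_option autoImplicit false

open ModularCurve

noncomputable section

namespace Fermat.Agent.GAL.CT

open KLC

/-- `∑ σ₃(n) qⁿ`. -/
def sig3 : PowerSeries ℤ := PowerSeries.mk fun n => ∑ d ∈ n.divisors, (d : ℤ) ^ 3

theorem eisenstein4_eq : eisenstein4 = 1 + PowerSeries.C 240 * sig3 := by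
  ext n
  rw [map_add, PowerSeries.coeff_C_mul, sig3, PowerSeries.coeff_mk, eisenstein4, PowerSeries.coeff_mk,
    PowerSeries.coeff_one]
  split_ifs with h
  · subst h; simp
  · simp

/-- `W_r` as a power series. -/
def WP (r : ℕ) : PowerSeries ℤ := sig3 - VZ r sig3

/-- `W_r / q`. -/
def wP (r : ℕ) : PowerSeries ℤ := PowerSeries.mk fun n => PowerSeries.coeff (n + 1) (WP r)

theorem WP_eq (r : ℕ) : WP r = PowerSeries.X * wP r := by
  ext n
  cases n with
  | zero =>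
    rw [PowerSeries.coeff_zero_X_mul, WP, map_sub, coeff_VZ, if_pos (dvd_zero r), Nat.zero_div,
      sub_self]
  | succ n => rw [PowerSeries.coeff_succ_X_mul, wP, PowerSeries.coeff_mk]

theorem constantCoeff_wP {r : ℕ} (hr : 2 ≤ r) : PowerSeries.constantCoeff (wP r) = 1 := by
  rw [← PowerSeries.coeff_zero_eq_constantCoeff_apply, wP, PowerSeries.coeff_mk, WP, map_sub,
    coeff_VZ, if_neg (by rw [Nat.dvd_one]; omega), sig3, PowerSeries.coeff_mk]
  simp

/-- `W_r ∈ ℤ((q))`. -/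
def WZ (r : ℕ) : LaurentSeries ℤ := LZ (WP r)

/-- `1 / W_r ∈ ℤ((q))`. -/
def WinvZ (r : ℕ) : LaurentSeries ℤ := HahnSeries.single (-1 : ℤ) 1 * LZ ((wP r).invOfUnit 1)

theorem WZ_mul_WinvZ {r : ℕ} (hr : 2 ≤ r) : WZ r * WinvZ r = 1 := by
  have h1 : wP r * (wP r).invOfUnit 1 = 1 :=
    PowerSeries.mul_invOfUnit _ _ (by rw [constantCoeff_wP hr]; rfl)
  unfold WZ WinvZ
  rw [WP_eq, map_mul, HahnSeries.ofPowerSeries_X, mul_mul_mul_comm, HahnSeries.single_mul_single,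
    ← map_mul, h1, map_one, mul_one, mul_one]
  rfl

theorem WZ_ne_zero {r : ℕ} (hr : 2 ≤ r) : WZ r ≠ 0 := by
  intro h
  have := WZ_mul_WinvZ hr
  rw [h, zero_mul] at this
  exact zero_ne_one this

/-- `E₄(q^r) ∈ ℤ((q))`. -/
def BZ (r : ℕ) : LaurentSeries ℤ := LZ (VZ r eisenstein4)

theorem VZ_eisenstein4 (r : ℕ) : VZ r eisenstein4 = 1 + PowerSeries.C 240 * VZ r sig3 := by
  ext n
  rw [coeff_VZ, map_add, PowerSeries.coeff_C_mul, coeff_VZ, eisenstein4_eq, map_add,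
    PowerSeries.coeff_C_mul, PowerSeries.coeff_one, PowerSeries.coeff_one]
  by_cases h : r ∣ n
  · rw [if_pos h, if_pos h]
    congr 1
    obtain ⟨m, rfl⟩ := h
    rcases Nat.eq_zero_or_pos r with rfl | hr
    · simp
    · rw [Nat.mul_div_cancel_left _ hr]
      simp [hr.ne']
  · rw [if_neg h, if_neg h, if_neg (by rintro rfl; exact h (dvd_zero r))]
    simp

theorem E4Z_sub_BZ (r : ℕ) : E4Z - BZ r = 240 * WZ r := by
  unfold E4Z BZ WZ WP
  rw [← map_sub, VZ_eisenstein4]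
  conv_lhs => rw [eisenstein4_eq]
  rw [show (1 + PowerSeries.C 240 * sig3 - (1 + PowerSeries.C 240 * VZ r sig3) : PowerSeries ℤ) =
    PowerSeries.C 240 * (sig3 - VZ r sig3) by ring, map_mul, map_ofNat, map_ofNat]

/-- `t₂`. -/
def t2Z : LaurentSeries ℤ := BZ 2 * WinvZ 2 - 16

/-- `t₃`. -/
def t3Z : LaurentSeries ℤ := BZ 3 * WinvZ 3 - 3

theorem monic_aux (r : ℕ) (hr : 2 ≤ r) (b : ℤ) :
    XSeries_Monic (-1) (BZ r * WinvZ r - (b : LaurentSeries ℤ)) := by
  have h1 : wP r * (wP r).invOfUnit 1 = 1 :=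
    PowerSeries.mul_invOfUnit _ _ (by rw [constantCoeff_wP hr]; rfl)
  have h2 : PowerSeries.constantCoeff ((wP r).invOfUnit 1) = 1 := by
    have := congrArg PowerSeries.constantCoeff h1
    rwa [map_mul, constantCoeff_wP hr, one_mul, map_one] at this
  have h3 : PowerSeries.constantCoeff (VZ r eisenstein4) = 1 := by
    rw [VZ_eisenstein4, map_add, map_mul, ← PowerSeries.coeff_zero_eq_constantCoeff_apply (VZ r sig3),
      coeff_VZ, if_pos (dvd_zero r), Nat.zero_div, sig3, PowerSeries.coeff_mk]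
    simp
  refine ⟨VZ r eisenstein4 * (wP r).invOfUnit 1 - PowerSeries.C b * PowerSeries.X, ?_, ?_⟩
  · rw [map_sub, map_mul, map_mul, h2, h3, PowerSeries.constantCoeff_X]
    simp
  · rw [map_sub, map_mul, map_mul, HahnSeries.ofPowerSeries_X, mul_sub]
    have h4 : HahnSeries.single (-1 : ℤ) (1 : ℤ) * HahnSeries.single 1 1 = 1 := by
      rw [HahnSeries.single_mul_single]; simp
    have h5 : LZ (PowerSeries.C b) = (b : LaurentSeries ℤ) := by
      rw [show (PowerSeries.C b : PowerSeries ℤ) = ((b : ℤ) : PowerSeries ℤ) from (map_intCast _ b),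
        map_intCast]
    unfold BZ WinvZ
    rw [show (HahnSeries.ofPowerSeries ℤ ℤ) (PowerSeries.C b) = (b : LaurentSeries ℤ) from h5]
    linear_combination (b : LaurentSeries ℤ) * h4

theorem monic_t2Z : XSeries_Monic (-1) t2Z := by
  have := monic_aux 2 le_rfl 16
  simpa [t2Z] using this

theorem monic_t3Z : XSeries_Monic (-1) t3Z := by
  have := monic_aux 3 (by norm_num) 3
  simpa [t3Z] using this

/-- `E₆(q^r) ∈ ℤ((q))`. -/
def CZ (r : ℕ) : LaurentSeries ℤ := LZ (VZ r eisenstein6)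

theorem BZ_eq (r : ℕ) [NeZero r] : BZ r = qExpand ℤ r E4Z := LZ_VZ r _

theorem CZ_eq (r : ℕ) [NeZero r] : CZ r = qExpand ℤ r E6Z := LZ_VZ r _

theorem delta_relZ_expand (r : ℕ) [NeZero r] : 1728 * qExpand ℤ r DZ = BZ r ^ 3 - CZ r ^ 2 := by
  have := congrArg (qExpand ℤ r) delta_relZ
  rw [map_mul, map_sub, map_pow, map_pow, map_ofNat, ← BZ_eq, ← CZ_eq] at this
  exact this

theorem jZ_mul_DZ_expand (r : ℕ) [NeZero r] : qExpand ℤ r jZ * qExpand ℤ r DZ = BZ r ^ 3 := by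
  have := congrArg (qExpand ℤ r) jZ_mul_DZ
  rw [map_mul, map_pow, ← BZ_eq] at this
  exact this

theorem E6Z_ne_zero : E6Z ≠ 0 := by
  intro h
  have h1 : eisenstein6 = 0 := LZ_injective (by rw [map_zero]; exact h)
  have h2 := congrArg (PowerSeries.coeff 0) h1
  simp [eisenstein6] at h2

/-! ## level 2 -/

section Two

local notation "t" => t2Z
local notation "W" => WZ 2

theorem t2_B : BZ 2 = (t + 16) * W := by
  have h := WZ_mul_WinvZ (r := 2) le_rfl
  unfold t2Z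
  linear_combination (-BZ 2) * h

theorem t2_A : E4Z = (t + 256) * W := by
  linear_combination t2_B + E4Z_sub_BZ 2

/-- `Δ = t² W³`. -/
theorem t2_D : DZ = t ^ 2 * W ^ 3 := by
  have h1 := congrArg LZ Phi21_eq_zero
  simp only [Phi21, map_sub, map_mul, map_pow, map_ofNat, map_zero] at h1
  change 1728 * ((256 * BZ 2 - 16 * E4Z) ^ 2 * (E4Z - BZ 2)) - 13824000 * (E4Z ^ 3 - E6Z ^ 2) = 0 at h1
  rw [← delta_relZ, t2_A, t2_B] at h1
  have h2 : (23887872000 : LaurentSeries ℤ) * DZ = 23887872000 * (t ^ 2 * W ^ 3) := by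
    linear_combination (-1 : LaurentSeries ℤ) * h1
  exact mul_left_cancel₀ (by norm_num) h2

/-- `Δ(q²) = t W³`. -/
theorem t2_D2 : qExpand ℤ 2 DZ = t * W ^ 3 := by
  have h1 := congrArg LZ Phi22_eq_zero
  simp only [Phi22, map_sub, map_mul, map_pow, map_ofNat, map_zero] at h1
  change 1728 * ((256 * BZ 2 - 16 * E4Z) * (E4Z - BZ 2) ^ 2) - 13824000 * (BZ 2 ^ 3 - CZ 2 ^ 2) = 0
    at h1
  rw [← delta_relZ_expand, t2_A, t2_B] at h1
  have h2 : (23887872000 : LaurentSeries ℤ) * qExpand ℤ 2 DZ = 23887872000 * (t * W ^ 3) := by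
    linear_combination (-1 : LaurentSeries ℤ) * h1
  exact mul_left_cancel₀ (by norm_num) h2

theorem t2_ne_zero : t ≠ 0 := by
  intro h
  have := t2_D
  rw [h] at this
  exact DZ_ne_zero (by rw [this]; ring)

/-- **(J2)** `j t² = (t + 256)³`. -/
theorem j_t2 : jZ * t ^ 2 = (t + 256) ^ 3 := by
  have h1 := jZ_mul_DZ
  rw [t2_A] at h1
  have h2 : jZ * t ^ 2 * W ^ 3 = (t + 256) ^ 3 * W ^ 3 := by
    linear_combination h1 - jZ * t2_D
  exact mul_right_cancel₀ (pow_ne_zero 3 (WZ_ne_zero le_rfl)) h2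

/-- `j(q²) t = (t + 16)³`. -/
theorem j2_t2 : qExpand ℤ 2 jZ * t = (t + 16) ^ 3 := by
  have h1 := jZ_mul_DZ_expand 2
  rw [t2_B, t2_D2] at h1
  have h2 : qExpand ℤ 2 jZ * t * W ^ 3 = (t + 16) ^ 3 * W ^ 3 := by
    linear_combination h1
  exact mul_right_cancel₀ (pow_ne_zero 3 (WZ_ne_zero le_rfl)) h2

/-- `(j - 1728) t² = (t + 64) (t - 512)²`. -/
theorem j_sub_t2 : (jZ - 1728) * t ^ 2 = (t + 64) * (t - 512) ^ 2 := by
  linear_combination j_t2

/-- `θ t · (t - 512) · W = - E₆ t`. -/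
theorem theta_t2_aux : theta t * (t - 512) * W = -(E6Z * t) := by
  have hW := WZ_ne_zero (r := 2) le_rfl
  have e1 := congrArg theta t2_A
  have e2 := congrArg theta t2_D
  rw [theta_mul, theta_add, theta_ofNat, add_zero] at e1
  rw [theta_DZ, theta_mul, theta_pow_pred, theta_pow_pred] at e2
  push_cast at e2
  simp only [pow_one] at e2
  have h4 := theta_E4Z
  rw [e1] at h4
  -- `(2)` after cancelling `t W²`
  have e3 : (2 * theta t * W + 3 * t * theta W) * (t * W ^ 2) = (E2Z * t * W) * (t * W ^ 2) := by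
    linear_combination (-1 : LaurentSeries ℤ) * e2 + E2Z * t2_D
  have e4 := mul_right_cancel₀ (mul_ne_zero t2_ne_zero (pow_ne_zero 2 hW)) e3
  linear_combination t * h4 - (t + 256) * e4 + E2Z * t * t2_A

/-- `(θ t)² = t² (t + 64) W`. -/
theorem theta_t2_sq : theta t ^ 2 = t ^ 2 * (t + 64) * W := by
  have hW := WZ_ne_zero (r := 2) le_rfl
  have h1 := theta_t2_aux
  have hne : (t - 512) * W ≠ 0 := by
    intro h
    have : E6Z * t = 0 := by
      have h2 : theta t * ((t - 512) * W) = -(E6Z * t) := by rw [← h1]; ring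
      rw [h, mul_zero] at h2
      exact neg_eq_zero.mp h2.symm
    exact mul_ne_zero E6Z_ne_zero t2_ne_zero this
  have h3 : E6Z ^ 2 = W ^ 3 * ((t + 64) * (t - 512) ^ 2) := by
    have := delta_relZ
    rw [t2_A, t2_D] at this
    linear_combination this
  have h4 : theta t ^ 2 * ((t - 512) * W) ^ 2 = t ^ 2 * (t + 64) * W * ((t - 512) * W) ^ 2 := by
    calc theta t ^ 2 * ((t - 512) * W) ^ 2 = (theta t * (t - 512) * W) ^ 2 := by ring
      _ = E6Z ^ 2 * t ^ 2 := by rw [h1]; ring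
      _ = _ := by rw [h3]; ring
  exact mul_right_cancel₀ (pow_ne_zero 2 hne) h4

/-- **(T2)** `(θ t)⁶ = t⁴ (t + 64)³ Δ`. -/
theorem theta_t2_pow_six : theta t ^ 6 = t ^ 4 * (t + 64) ^ 3 * DZ := by
  calc theta t ^ 6 = (theta t ^ 2) ^ 3 := by ring
    _ = t ^ 4 * (t + 64) ^ 3 * (t ^ 2 * W ^ 3) := by rw [theta_t2_sq]; ring
    _ = _ := by rw [← t2_D]

end Two

/-! ## level 3 -/

section Three

local notation "t" => t3Z
local notation "W" => WZ 3

theorem t3_B : BZ 3 = (t + 3) * W := by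
  have h := WZ_mul_WinvZ (r := 3) (by norm_num)
  unfold t3Z
  linear_combination (-BZ 3) * h

theorem t3_A : E4Z = (t + 243) * W := by
  linear_combination t3_B + E4Z_sub_BZ 3

/-- `(t + 27) Δ = t³ W³`. -/
theorem t3_D : (t + 27) * DZ = t ^ 3 * W ^ 3 := by
  have hW := WZ_ne_zero (r := 3) (by norm_num)
  have h1 := congrArg LZ Phi31_eq_zero
  simp only [Phi31, map_sub, map_mul, map_pow, map_ofNat, map_zero, map_add] at h1
  change 1728 * ((243 * BZ 3 - 3 * E4Z) ^ 3 * (E4Z - BZ 3)) -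
    331776000 * ((E4Z ^ 3 - E6Z ^ 2) * (E4Z + 9 * BZ 3)) = 0 at h1
  rw [← delta_relZ, t3_A, t3_B] at h1
  have h2 : (5733089280000 * W : LaurentSeries ℤ) * ((t + 27) * DZ) =
      (5733089280000 * W) * (t ^ 3 * W ^ 3) := by
    linear_combination (-1 : LaurentSeries ℤ) * h1
  exact mul_left_cancel₀ (mul_ne_zero (by norm_num) hW) h2

/-- `(t + 27) Δ(q³) = t W³`. -/
theorem t3_D3 : (t + 27) * qExpand ℤ 3 DZ = t * W ^ 3 := by
  have hW := WZ_ne_zero (r := 3) (by norm_num)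
  have h1 := congrArg LZ Phi32_eq_zero
  simp only [Phi32, map_sub, map_mul, map_pow, map_ofNat, map_zero, map_add] at h1
  change 1728 * ((243 * BZ 3 - 3 * E4Z) * (E4Z - BZ 3) ^ 3) -
    331776000 * ((BZ 3 ^ 3 - CZ 3 ^ 2) * (E4Z + 9 * BZ 3)) = 0 at h1
  rw [← delta_relZ_expand, t3_A, t3_B] at h1
  have h2 : (5733089280000 * W : LaurentSeries ℤ) * ((t + 27) * qExpand ℤ 3 DZ) =
      (5733089280000 * W) * (t * W ^ 3) := by
    linear_combination (-1 : LaurentSeries ℤ) * h1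
  exact mul_left_cancel₀ (mul_ne_zero (by norm_num) hW) h2

theorem t3_add_ne_zero : t + 27 ≠ 0 := by
  intro h
  have h1 : XSeries_Monic (-1) (t + 27) := by
    have := monic_aux 3 (by norm_num) (-24)
    have e : BZ 3 * WinvZ 3 - ((-24 : ℤ) : LaurentSeries ℤ) = t + 27 := by
      unfold t3Z; push_cast; ring
    rwa [e] at this
  have h2 := h1.order
  rw [h, HahnSeries.order_zero] at h2
  norm_num at h2

theorem t3_ne_zero : t ≠ 0 := by
  intro h
  have := t3_D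
  rw [h] at this
  have h27 : ((0 : LaurentSeries ℤ) + 27) * DZ = 0 := by rw [this]; ring
  exact mul_ne_zero (by norm_num) DZ_ne_zero h27

/-- **(J3)** `j t³ = (t + 27) (t + 243)³`. -/
theorem j_t3 : jZ * t ^ 3 = (t + 27) * (t + 243) ^ 3 := by
  have h1 := jZ_mul_DZ
  rw [t3_A] at h1
  have h2 : jZ * t ^ 3 * W ^ 3 = (t + 27) * (t + 243) ^ 3 * W ^ 3 := by
    linear_combination (t + 27) * h1 - jZ * t3_D
  exact mul_right_cancel₀ (pow_ne_zero 3 (WZ_ne_zero (by norm_num))) h2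

/-- `j(q³) t = (t + 27) (t + 3)³`. -/
theorem j3_t3 : qExpand ℤ 3 jZ * t = (t + 27) * (t + 3) ^ 3 := by
  have h1 := jZ_mul_DZ_expand 3
  rw [t3_B] at h1
  have h2 : qExpand ℤ 3 jZ * t * W ^ 3 = (t + 27) * (t + 3) ^ 3 * W ^ 3 := by
    linear_combination (t + 27) * h1 - qExpand ℤ 3 jZ * t3_D3
  exact mul_right_cancel₀ (pow_ne_zero 3 (WZ_ne_zero (by norm_num))) h2

/-- `(j - 1728) t³ = (t² - 486 t - 19683)²`. -/
theorem j_sub_t3 : (jZ - 1728) * t ^ 3 = (t ^ 2 - 486 * t - 19683) ^ 2 := by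
  linear_combination j_t3

/-- `θ t · (t² - 486 t - 19683) · W = - E₆ t (t + 27)`. -/
theorem theta_t3_aux : theta t * (t ^ 2 - 486 * t - 19683) * W = -(E6Z * t * (t + 27)) := by
  have hW := WZ_ne_zero (r := 3) (by norm_num)
  have e1 := congrArg theta t3_A
  have e2 := congrArg theta t3_D
  rw [theta_mul, theta_add, theta_ofNat, add_zero] at e1
  rw [theta_mul, theta_add, theta_ofNat, add_zero, theta_DZ, theta_mul, theta_pow_pred,
    theta_pow_pred] at e2
  push_cast at e2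
  have h4 := theta_E4Z
  rw [e1] at h4
  have e3 : (theta t * t * W + (t + 27) * E2Z * t * W) * (t ^ 2 * W ^ 2) =
      ((t + 27) * (3 * W * theta t + 3 * t * theta W)) * (t ^ 2 * W ^ 2) := by
    linear_combination (t + 27) * e2 - (theta t + (t + 27) * E2Z) * t3_D
  have e4 := mul_right_cancel₀ (mul_ne_zero (pow_ne_zero 2 t3_ne_zero) (pow_ne_zero 2 hW)) e3
  linear_combination t * (t + 27) * h4 + (t + 243) * e4 + E2Z * t * (t + 27) * t3_A

/-- `(θ t)² = t² (t + 27) W`. -/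
theorem theta_t3_sq : theta t ^ 2 = t ^ 2 * (t + 27) * W := by
  have hW := WZ_ne_zero (r := 3) (by norm_num)
  have h1 := theta_t3_aux
  have hne : (t ^ 2 - 486 * t - 19683) * W ≠ 0 := by
    intro h
    have : E6Z * t * (t + 27) = 0 := by
      have h2 : theta t * ((t ^ 2 - 486 * t - 19683) * W) = -(E6Z * t * (t + 27)) := by
        rw [← h1]; ring
      rw [h, mul_zero] at h2
      exact neg_eq_zero.mp h2.symm
    exact mul_ne_zero (mul_ne_zero E6Z_ne_zero t3_ne_zero) t3_add_ne_zero this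
  have h3 : (t + 27) * E6Z ^ 2 = W ^ 3 * (t ^ 2 - 486 * t - 19683) ^ 2 := by
    have := delta_relZ
    rw [t3_A] at this
    linear_combination (t + 27) * this - 1728 * t3_D
  have h4 : theta t ^ 2 * (((t ^ 2 - 486 * t - 19683) * W) ^ 2 * (t + 27)) =
      t ^ 2 * (t + 27) * W * (((t ^ 2 - 486 * t - 19683) * W) ^ 2 * (t + 27)) := by
    calc theta t ^ 2 * (((t ^ 2 - 486 * t - 19683) * W) ^ 2 * (t + 27))
        = (theta t * (t ^ 2 - 486 * t - 19683) * W) ^ 2 * (t + 27) := by ring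
      _ = ((t + 27) * E6Z ^ 2) * t ^ 2 * (t + 27) ^ 2 := by rw [h1]; ring
      _ = _ := by rw [h3]; ring
  exact mul_right_cancel₀ (mul_ne_zero (pow_ne_zero 2 hne) t3_add_ne_zero) h4

/-- **(T3)** `(θ t)⁶ = t³ (t + 27)⁴ Δ`. -/
theorem theta_t3_pow_six : theta t ^ 6 = t ^ 3 * (t + 27) ^ 4 * DZ := by
  calc theta t ^ 6 = (theta t ^ 2) ^ 3 := by ring
    _ = t ^ 3 * (t + 27) ^ 3 * (t ^ 3 * W ^ 3) := by rw [theta_t3_sq]; ring
    _ = _ := by rw [← t3_D]; ring

end Three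

end Fermat.Agent.GAL.CT
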