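import Fermat.Agent.GAL.CT.Q.Sturm

/-!
# GAL / CT / Q : the four Sturm identities of level 2 and 3

With `A = E₄(q)`, `B = E₄(q^r)`, `C = E₆(q)`, `C' = E₆(q^r)` (so `1728 Δ = A³ - C²`, `1728 Δ(q^r) = B³ - C'²`):
* `r = 2` : `(256 B - 16 A)² (A - B) = 240³ Δ`,  `(256 B - 16 A) (A - B)² = 240³ Δ(q²)`;
* `r = 3` : `(243 B - 3 A)³ (A - B) = 24·240³ Δ (A + 9 B)`,  `(243 B - 3 A) (A - B)³ = 24·240³ Δ(q³) (A + 9 B)`.
Proof: both sides are modular forms of weight 12 (resp. 16) on `Γ₀(r)`; Sturm bound + finite check.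
-/

set_option autoImplicit false
set_option linter.unusedSimpArgs false

open ModularCurve

noncomputable section

namespace Fermat.Agent.GAL.CT

/-- the polynomial with coefficient list `l`, as a power series. -/
def tr (l : List ℤ) : PowerSeries ℤ := PowerSeries.mk fun n => l.getD n 0

theorem tr_nil : tr [] = 0 := by
  ext n; simp [tr]

theorem tr_cons (a : ℤ) (l : List ℤ) : tr (a :: l) = PowerSeries.C a + PowerSeries.X * tr l := by
  ext n
  cases n with
  | zero => simp [tr]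
  | succ n =>
    rw [map_add, PowerSeries.coeff_succ_X_mul, PowerSeries.coeff_C, if_neg (Nat.succ_ne_zero n)]
    simp [tr]

/-- reduction modulo `X^N`. -/
def modX (N : ℕ) :
    PowerSeries ℤ →+* (PowerSeries ℤ ⧸ Ideal.span {(PowerSeries.X : PowerSeries ℤ) ^ N}) :=
  Ideal.Quotient.mk _

theorem modX_eq_zero_iff {N : ℕ} {Φ : PowerSeries ℤ} :
    modX N Φ = 0 ↔ ∀ m < N, PowerSeries.coeff m Φ = 0 := by
  rw [modX, Ideal.Quotient.eq_zero_iff_mem, Ideal.mem_span_singleton, PowerSeries.X_pow_dvd_iff]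

theorem modX_X_pow_mul (N : ℕ) (Q : PowerSeries ℤ) : modX N (PowerSeries.X ^ N * Q) = 0 := by
  rw [modX, Ideal.Quotient.eq_zero_iff_mem, Ideal.mem_span_singleton]
  exact dvd_mul_right _ _

theorem modX_eq_tr {N : ℕ} {A : PowerSeries ℤ} (l : List ℤ)
    (h : ∀ m < N, PowerSeries.coeff m A = l.getD m 0) : modX N A = modX N (tr l) := by
  rw [← sub_eq_zero, ← map_sub, modX_eq_zero_iff]
  intro m hm
  rw [map_sub, h m hm, tr, PowerSeries.coeff_mk, sub_self]

theorem modX_E4_2 : modX 4 eisenstein4 = modX 4 (tr [1, 240, 2160, 6720]) := by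
  apply modX_eq_tr
  simp only [eisenstein4, eisenstein6, PowerSeries.coeff_mk, coeff_VZ]
  decide +kernel

theorem modX_E6_2 : modX 4 eisenstein6 = modX 4 (tr [1, -504, -16632, -122976]) := by
  apply modX_eq_tr
  simp only [eisenstein4, eisenstein6, PowerSeries.coeff_mk, coeff_VZ]
  decide +kernel

theorem modX_VE4_2 : modX 4 (VZ 2 eisenstein4) = modX 4 (tr [1, 0, 240, 0]) := by
  apply modX_eq_tr
  simp only [eisenstein4, eisenstein6, PowerSeries.coeff_mk, coeff_VZ]
  decide +kernel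

theorem modX_VE6_2 : modX 4 (VZ 2 eisenstein6) = modX 4 (tr [1, 0, -504, 0]) := by
  apply modX_eq_tr
  simp only [eisenstein4, eisenstein6, PowerSeries.coeff_mk, coeff_VZ]
  decide +kernel

theorem modX_E4_3 : modX 6 eisenstein4 = modX 6 (tr [1, 240, 2160, 6720, 17520, 30240]) := by
  apply modX_eq_tr
  simp only [eisenstein4, eisenstein6, PowerSeries.coeff_mk, coeff_VZ]
  decide +kernel

theorem modX_E6_3 : modX 6 eisenstein6 = modX 6 (tr [1, -504, -16632, -122976, -532728, -1575504]) := by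
  apply modX_eq_tr
  simp only [eisenstein4, eisenstein6, PowerSeries.coeff_mk, coeff_VZ]
  decide +kernel

theorem modX_VE4_3 : modX 6 (VZ 3 eisenstein4) = modX 6 (tr [1, 0, 0, 240, 0, 0]) := by
  apply modX_eq_tr
  simp only [eisenstein4, eisenstein6, PowerSeries.coeff_mk, coeff_VZ]
  decide +kernel

theorem modX_VE6_3 : modX 6 (VZ 3 eisenstein6) = modX 6 (tr [1, 0, 0, -504, 0, 0]) := by
  apply modX_eq_tr
  simp only [eisenstein4, eisenstein6, PowerSeries.coeff_mk, coeff_VZ]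
  decide +kernel

/-- `1728 (256 B - 16 A)² (A - B) - 240³ (A³ - C²)`. -/
def Phi21 (A B C : PowerSeries ℤ) : PowerSeries ℤ :=
  1728 * ((256 * B - 16 * A) ^ 2 * (A - B)) - 13824000 * (A ^ 3 - C ^ 2)

/-- `1728 (256 B - 16 A) (A - B)² - 240³ (B³ - C'²)`. -/
def Phi22 (A B C' : PowerSeries ℤ) : PowerSeries ℤ :=
  1728 * ((256 * B - 16 * A) * (A - B) ^ 2) - 13824000 * (B ^ 3 - C' ^ 2)

/-- `1728 (243 B - 3 A)³ (A - B) - 24·240³ (A³ - C²) (A + 9 B)`. -/
def Phi31 (A B C : PowerSeries ℤ) : PowerSeries ℤ :=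
  1728 * ((243 * B - 3 * A) ^ 3 * (A - B)) - 331776000 * ((A ^ 3 - C ^ 2) * (A + 9 * B))

/-- `1728 (243 B - 3 A) (A - B)³ - 24·240³ (B³ - C'²) (A + 9 B)`. -/
def Phi32 (A B C' : PowerSeries ℤ) : PowerSeries ℤ :=
  1728 * ((243 * B - 3 * A) * (A - B) ^ 3) - 331776000 * ((B ^ 3 - C' ^ 2) * (A + 9 * B))

theorem isQ_Phi21 : IsQ 2 12 (Phi21 eisenstein4 (VZ 2 eisenstein4) eisenstein6) := by
  have hA : IsQ 2 4 eisenstein4 := isQ_E4
  have hB : IsQ 2 4 (VZ 2 eisenstein4) := isQ_VZ_E4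
  have hu : IsQ 2 4 (PowerSeries.C 256 * VZ 2 eisenstein4 - PowerSeries.C 16 * eisenstein4) :=
    (hB.const_mul 256).sub (hA.const_mul 16)
  have hw : IsQ 2 4 (eisenstein4 - VZ 2 eisenstein4) := hA.sub hB
  have hC : IsQ 2 6 eisenstein6 := isQ_E6
  have h1 := (((hu.mul hu (k'' := 8) (by norm_num)).mul hw (k'' := 12) (by norm_num)).const_mul 1728).sub
    ((((hA.mul hA (k'' := 8) (by norm_num)).mul hA (k'' := 12) (by norm_num)).sub
      (hC.mul hC (k'' := 12) (by norm_num))).const_mul 13824000)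
  convert h1 using 1
  simp only [Phi21, map_ofNat]
  ring

theorem isQ_Phi22 : IsQ 2 12 (Phi22 eisenstein4 (VZ 2 eisenstein4) (VZ 2 eisenstein6)) := by
  have hA : IsQ 2 4 eisenstein4 := isQ_E4
  have hB : IsQ 2 4 (VZ 2 eisenstein4) := isQ_VZ_E4
  have hu : IsQ 2 4 (PowerSeries.C 256 * VZ 2 eisenstein4 - PowerSeries.C 16 * eisenstein4) :=
    (hB.const_mul 256).sub (hA.const_mul 16)
  have hw : IsQ 2 4 (eisenstein4 - VZ 2 eisenstein4) := hA.sub hB
  have hC : IsQ 2 6 (VZ 2 eisenstein6) := isQ_VZ_E6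
  have h1 := (((hu.mul hw (k'' := 8) (by norm_num)).mul hw (k'' := 12) (by norm_num)).const_mul 1728).sub
    ((((hB.mul hB (k'' := 8) (by norm_num)).mul hB (k'' := 12) (by norm_num)).sub
      (hC.mul hC (k'' := 12) (by norm_num))).const_mul 13824000)
  convert h1 using 1
  simp only [Phi22, map_ofNat]
  ring

theorem isQ_Phi31 : IsQ 3 16 (Phi31 eisenstein4 (VZ 3 eisenstein4) eisenstein6) := by
  have hA : IsQ 3 4 eisenstein4 := isQ_E4
  have hB : IsQ 3 4 (VZ 3 eisenstein4) := isQ_VZ_E4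
  have hu : IsQ 3 4 (PowerSeries.C 243 * VZ 3 eisenstein4 - PowerSeries.C 3 * eisenstein4) :=
    (hB.const_mul 243).sub (hA.const_mul 3)
  have hw : IsQ 3 4 (eisenstein4 - VZ 3 eisenstein4) := hA.sub hB
  have hC : IsQ 3 6 eisenstein6 := isQ_E6
  have hs : IsQ 3 4 (eisenstein4 + PowerSeries.C 9 * VZ 3 eisenstein4) := hA.add (hB.const_mul 9)
  have h1 := ((((hu.mul hu (k'' := 8) (by norm_num)).mul hu (k'' := 12) (by norm_num)).mul hw
      (k'' := 16) (by norm_num)).const_mul 1728).sub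
    (((((hA.mul hA (k'' := 8) (by norm_num)).mul hA (k'' := 12) (by norm_num)).sub
      (hC.mul hC (k'' := 12) (by norm_num))).mul hs (k'' := 16) (by norm_num)).const_mul 331776000)
  convert h1 using 1
  simp only [Phi31, map_ofNat]
  ring

theorem isQ_Phi32 : IsQ 3 16 (Phi32 eisenstein4 (VZ 3 eisenstein4) (VZ 3 eisenstein6)) := by
  have hA : IsQ 3 4 eisenstein4 := isQ_E4
  have hB : IsQ 3 4 (VZ 3 eisenstein4) := isQ_VZ_E4
  have hu : IsQ 3 4 (PowerSeries.C 243 * VZ 3 eisenstein4 - PowerSeries.C 3 * eisenstein4) :=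
    (hB.const_mul 243).sub (hA.const_mul 3)
  have hw : IsQ 3 4 (eisenstein4 - VZ 3 eisenstein4) := hA.sub hB
  have hC : IsQ 3 6 (VZ 3 eisenstein6) := isQ_VZ_E6
  have hs : IsQ 3 4 (eisenstein4 + PowerSeries.C 9 * VZ 3 eisenstein4) := hA.add (hB.const_mul 9)
  have h1 := ((((hu.mul hw (k'' := 8) (by norm_num)).mul hw (k'' := 12) (by norm_num)).mul hw
      (k'' := 16) (by norm_num)).const_mul 1728).sub
    (((((hB.mul hB (k'' := 8) (by norm_num)).mul hB (k'' := 12) (by norm_num)).sub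
      (hC.mul hC (k'' := 12) (by norm_num))).mul hs (k'' := 16) (by norm_num)).const_mul 331776000)
  convert h1 using 1
  simp only [Phi32, map_ofNat]
  ring

theorem Phi21_eq_zero : Phi21 eisenstein4 (VZ 2 eisenstein4) eisenstein6 = 0 := by
  refine IsQ.eq_zero (p := 2) (k := 12) isQ_Phi21 3 (by norm_num) fun n hn => ?_
  have h1 : modX 4 (Phi21 eisenstein4 (VZ 2 eisenstein4) eisenstein6) = modX 4 (Phi21 (tr [1, 240, 2160, 6720]) (tr [1, 0, 240, 0]) (tr [1, -504, -16632, -122976])) := by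
    simp only [Phi21, map_sub, map_mul, map_pow, map_add, modX_E4_2, modX_VE4_2, modX_E6_2]
  have h2 : Phi21 (tr [1, 240, 2160, 6720]) (tr [1, 0, 240, 0]) (tr [1, -504, -16632, -122976]) = PowerSeries.X ^ 4 * tr [13926629376000, -7038131503104000, -221329733713920000, -1746143054659584000, -4074034144739328000, -4060849568219136000] := by
    simp only [Phi21, tr_cons, tr_nil, map_ofNat, map_neg, map_one, map_zero]
    ring
  rw [h2, modX_X_pow_mul] at h1
  exact modX_eq_zero_iff.mp h1 n (Nat.lt_succ_of_le hn)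

theorem Phi22_eq_zero : Phi22 eisenstein4 (VZ 2 eisenstein4) (VZ 2 eisenstein6) = 0 := by
  refine IsQ.eq_zero (p := 2) (k := 12) isQ_Phi22 3 (by norm_num) fun n hn => ?_
  have h1 : modX 4 (Phi22 eisenstein4 (VZ 2 eisenstein4) (VZ 2 eisenstein6)) = modX 4 (Phi22 (tr [1, 240, 2160, 6720]) (tr [1, 0, 240, 0]) (tr [1, 0, -504, 0])) := by
    simp only [Phi22, map_sub, map_mul, map_pow, map_add, modX_E4_2, modX_VE4_2, modX_VE6_2]
  have h2 : Phi22 (tr [1, 240, 2160, 6720]) (tr [1, 0, 240, 0]) (tr [1, 0, -504, 0]) = PowerSeries.X ^ 4 * tr [549421056000, -3057647616000, -193778417664000, -385263599616000, -2696845197312000, -8390185058304000] := by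
    simp only [Phi22, tr_cons, tr_nil, map_ofNat, map_neg, map_one, map_zero]
    ring
  rw [h2, modX_X_pow_mul] at h1
  exact modX_eq_zero_iff.mp h1 n (Nat.lt_succ_of_le hn)

theorem Phi31_eq_zero : Phi31 eisenstein4 (VZ 3 eisenstein4) eisenstein6 = 0 := by
  refine IsQ.eq_zero (p := 3) (k := 16) isQ_Phi31 5 (by norm_num) fun n hn => ?_
  have h1 : modX 6 (Phi31 eisenstein4 (VZ 3 eisenstein4) eisenstein6) = modX 6 (Phi31 (tr [1, 240, 2160, 6720, 17520, 30240]) (tr [1, 0, 0, 240, 0, 0]) (tr [1, -504, -16632, -122976, -532728, -1575504])) := by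
    simp only [Phi31, map_sub, map_mul, map_pow, map_add, modX_E4_3, modX_VE4_3, modX_E6_3]
  have h2 : Phi31 (tr [1, 240, 2160, 6720, 17520, 30240]) (tr [1, 0, 0, 240, 0, 0]) (tr [1, -504, -16632, -122976, -532728, -1575504]) = PowerSeries.X ^ 6 * tr [26137154027520000, -12533393129472000000, -750912643942318080000, -16962707676856320000000, -210836681973348433920000, -1673562002692948623360000, -9332506790505747578880000, -38739773724352142376960000, -121354161822284167249920000, -289823814828348344893440000, -541550125735633803018240000, -758143052249238350069760000, -825233498774485094891520000, -643051105023625286123520000, -277480956277317760450560000] := by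
    simp only [Phi31, tr_cons, tr_nil, map_ofNat, map_neg, map_one, map_zero]
    ring
  rw [h2, modX_X_pow_mul] at h1
  exact modX_eq_zero_iff.mp h1 n (Nat.lt_succ_of_le hn)

theorem Phi32_eq_zero : Phi32 eisenstein4 (VZ 3 eisenstein4) (VZ 3 eisenstein6) = 0 := by
  refine IsQ.eq_zero (p := 3) (k := 16) isQ_Phi32 5 (by norm_num) fun n hn => ?_
  have h1 : modX 6 (Phi32 eisenstein4 (VZ 3 eisenstein4) (VZ 3 eisenstein6)) = modX 6 (Phi32 (tr [1, 240, 2160, 6720, 17520, 30240]) (tr [1, 0, 0, 240, 0, 0]) (tr [1, 0, 0, -504, 0, 0])) := by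
    simp only [Phi32, map_sub, map_mul, map_pow, map_add, modX_E4_3, modX_VE4_3, modX_VE6_3]
  have h2 : Phi32 (tr [1, 240, 2160, 6720, 17520, 30240]) (tr [1, 0, 0, 240, 0, 0]) (tr [1, 0, 0, -504, 0, 0]) = PowerSeries.X ^ 6 * tr [131861053440000, 3164665282560000, 24302565457920000, 41679559065600000, -1327817875783680000, -11668791668244480000, -55629564157624320000, -164355549906862080000, -491489820845015040000, -1202407212822036480000, -3173839526819266560000, -6285123906164490240000, -9694019067240775680000, -10046260760574689280000, -4335030328193187840000] := by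
    simp only [Phi32, tr_cons, tr_nil, map_ofNat, map_neg, map_one, map_zero]
    ring
  rw [h2, modX_X_pow_mul] at h1
  exact modX_eq_zero_iff.mp h1 n (Nat.lt_succ_of_le hn)

end Fermat.Agent.GAL.CT
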